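/- Period map of weight two cusp forms for a finite-index subgroup of `SL(2, ℤ)`. Owner: helper52. -/
import Fermat.Agent.Periods.EichlerIntegral
import Fermat.Agent.Periods.Defs
import Mathlib.NumberTheory.ModularForms.NormTrace
import Mathlib.GroupTheory.Index

set_option autoImplicit false

noncomputable section

open UpperHalfPlane hiding I
open Filter Function ModularCurve.Period
open scoped MatrixGroups Topology Manifold ModularForm

namespace Fermat.Agent.DeligneSerre

open Fermat.Agent.Periods (IsPrimitive exists_primitive_of_periodic exists_conj_translation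
  cuspidalHoms)

variable {Γ : Subgroup SL(2, ℤ)} [Γ.FiniteIndex]

/-- All conjugates of some positive power of `T` lie in `Γ`. -/
theorem exists_conj_T_pow_mem (Γ : Subgroup SL(2, ℤ)) [Γ.FiniteIndex] :
    ∃ h : ℕ, 0 < h ∧ ∀ δ : SL(2, ℤ), δ * ModularGroup.T ^ (h : ℤ) * δ⁻¹ ∈ Γ := by
  obtain ⟨h, h0, -, hmem⟩ :=
    Subgroup.exists_pow_mem_of_index_ne_zero (H := Γ.normalCore) Subgroup.FiniteIndex.index_ne_zero
      ModularGroup.T
  exact ⟨h, h0, fun δ => Subgroup.normalCore_le Γ
    ((Subgroup.normalCore_normal Γ).conj_mem _ (by rwa [zpow_natCast]) δ)⟩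

omit [Γ.FiniteIndex] in
theorem slash_eq_self (f : CuspForm Γ 2) {γ : SL(2, ℤ)} (hγ : γ ∈ Γ) :
    (f : ℍ → ℂ) ∣[(2 : ℤ)] γ = f :=
  SlashInvariantFormClass.slash_action_eq f _ ⟨γ, hγ, rfl⟩

/-- Every translate of a weight two cusp form has a primitive vanishing at `i∞`. -/
theorem exists_primitive_slash (f : CuspForm Γ 2) (δ : SL(2, ℤ)) :
    ∃ G : ℍ → ℂ, IsPrimitive ((f : ℍ → ℂ) ∣[(2 : ℤ)] δ) G ∧ Tendsto G atImInfty (𝓝 0) := by
  obtain ⟨h, h0, hmem⟩ := exists_conj_T_pow_mem Γ
  have key : ∀ τ : ℍ, ((f : ℍ → ℂ) ∣[(2 : ℤ)] δ) (((h : ℤ) : ℝ) +ᵥ τ)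
      = ((f : ℍ → ℂ) ∣[(2 : ℤ)] δ) τ := by
    intro τ
    have h1 : ((f : ℍ → ℂ) ∣[(2 : ℤ)] δ) ∣[(2 : ℤ)] (ModularGroup.T ^ (h : ℤ))
        = (f : ℍ → ℂ) ∣[(2 : ℤ)] δ := by
      rw [← SlashAction.slash_mul,
        show δ * ModularGroup.T ^ (h : ℤ) = δ * ModularGroup.T ^ (h : ℤ) * δ⁻¹ * δ by group,
        SlashAction.slash_mul, slash_eq_self f (hmem δ)]
    have h2 := congrFun h1 τ
    rw [ModularForm.SL_slash_apply, modular_T_zpow_smul] at h2
    have hd : denom (ModularGroup.T ^ (h : ℤ) : SL(2, ℤ)) (τ : ℂ) = 1 := by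
      have e : ((ModularGroup.T ^ (h : ℤ) : SL(2, ℤ)) : Matrix (Fin 2) (Fin 2) ℤ) 1 0 = 0 ∧
          ((ModularGroup.T ^ (h : ℤ) : SL(2, ℤ)) : Matrix (Fin 2) (Fin 2) ℤ) 1 1 = 1 := by
        rw [ModularGroup.coe_T_zpow]
        simp
      rw [ModularGroup.denom_apply, e.1, e.2]
      simp
    rwa [hd, one_zpow, mul_one] at h2
  have hper : Periodic (((f : ℍ → ℂ) ∣[(2 : ℤ)] δ) ∘ ofComplex) (((h : ℝ) : ℂ)) := by
    intro w
    by_cases hw : 0 < w.im
    · have hw' : 0 < (w + ((h : ℝ) : ℂ)).im := by simpa using hw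
      simp only [Function.comp_apply, ofComplex_apply_of_im_pos hw, ofComplex_apply_of_im_pos hw']
      convert key ⟨w, hw⟩ using 2
      ext
      simp [add_comm]
    · have hw' : (w + ((h : ℝ) : ℂ)).im ≤ 0 := by simpa using hw
      simp only [Function.comp_apply, ofComplex_apply_of_im_nonpos (not_lt.mp hw),
        ofComplex_apply_of_im_nonpos hw']
  exact exists_primitive_of_periodic (Nat.cast_pos.mpr h0) hper
    (MDifferentiable.slash (CuspFormClass.holo f) _ _) (CuspFormClass.zero_at_infty_slash f δ)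

theorem exists_primitive (f : CuspForm Γ 2) :
    ∃ F : ℍ → ℂ, IsPrimitive f F ∧ Tendsto F atImInfty (𝓝 0) := by
  obtain ⟨G, hG, hG0⟩ := exists_primitive_slash f 1
  rw [SlashAction.slash_one] at hG
  exact ⟨G, hG, hG0⟩

/-- Every primitive has a finite limit at every cusp. -/
theorem exists_tendsto_smul (f : CuspForm Γ 2) {F : ℍ → ℂ} (hF : IsPrimitive f F) (δ : SL(2, ℤ)) :
    ∃ L : ℂ, Tendsto (fun w : ℍ ↦ F (δ • w)) atImInfty (𝓝 L) := by
  obtain ⟨G, hG, hG0⟩ := exists_primitive_slash f δ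
  refine ⟨0 + (F (δ • UpperHalfPlane.I) - G UpperHalfPlane.I),
    (hG0.add_const (F (δ • UpperHalfPlane.I) - G UpperHalfPlane.I)).congr fun w ↦ ?_⟩
  linear_combination -((hF.comp_SL_smul δ).sub_eq_sub hG w UpperHalfPlane.I)

omit [Γ.FiniteIndex] in
theorem isEquivariantPrimitive (f : CuspForm Γ 2) {F : ℍ → ℂ} (hF : IsPrimitive f F) :
    IsEquivariantPrimitive Γ F := by
  intro γ
  refine ⟨F ((γ : SL(2, ℤ)) • UpperHalfPlane.I) - F UpperHalfPlane.I, fun z ↦ ?_⟩
  have h := hF.comp_SL_smul (γ : SL(2, ℤ))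
  rw [slash_eq_self f γ.2] at h
  exact h.sub_eq_sub hF z UpperHalfPlane.I

/-- The periods of a weight two cusp form as a homomorphism on `Γ`. -/
def periodFun (f : CuspForm Γ 2) : Additive Γ →+ ℂ :=
  (isEquivariantPrimitive f (exists_primitive f).choose_spec.1).periodHom

/-- The periods can be computed from any primitive at any base point. -/
theorem periodFun_apply (f : CuspForm Γ 2) {F : ℍ → ℂ} (hF : IsPrimitive f F) (γ : Γ) (z : ℍ) :
    periodFun f (Additive.ofMul γ) = F ((γ : SL(2, ℤ)) • z) - F z := by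
  set h := (exists_primitive f).choose_spec.1
  rw [periodFun, IsEquivariantPrimitive.periodHom_apply,
    ← (isEquivariantPrimitive f h).sub_eq_period γ z]
  linear_combination h.sub_eq_sub hF ((γ : SL(2, ℤ)) • z) z

variable (Γ) in
/-- The period map for a finite-index subgroup, as a linear map. -/
def periodLinGen : CuspForm Γ 2 →ₗ[ℂ] (Additive Γ →+ ℂ) where
  toFun := periodFun
  map_add' f g := by
    obtain ⟨F, hF, -⟩ := exists_primitive f
    obtain ⟨G, hG, -⟩ := exists_primitive g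
    refine AddMonoidHom.ext fun x ↦ ?_
    rw [← ofMul_toMul x, AddMonoidHom.add_apply,
      periodFun_apply (f + g) (F := F + G) (IsPrimitive.add hF hG) _ UpperHalfPlane.I,
      periodFun_apply f hF _ UpperHalfPlane.I, periodFun_apply g hG _ UpperHalfPlane.I]
    simp only [Pi.add_apply]
    ring
  map_smul' c f := by
    obtain ⟨F, hF, -⟩ := exists_primitive f
    refine AddMonoidHom.ext fun x ↦ ?_
    rw [← ofMul_toMul x, RingHom.id_apply, AddMonoidHom.smul_apply,
      periodFun_apply (c • f) (F := c • F) (IsPrimitive.const_smul hF c) _ UpperHalfPlane.I,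
      periodFun_apply f hF _ UpperHalfPlane.I]
    simp only [Pi.smul_apply, smul_eq_mul]
    ring

theorem periodLinGen_apply (f : CuspForm Γ 2) {F : ℍ → ℂ} (hF : IsPrimitive f F) (γ : Γ) (z : ℍ) :
    periodLinGen Γ f (Additive.ofMul γ) = F ((γ : SL(2, ℤ)) • z) - F z :=
  periodFun_apply f hF γ z

variable (Γ) in
/-- The periods of a cusp form vanish on parabolic elements. -/
theorem periodLinGen_mem_parabolicHoms (f : CuspForm Γ 2) :
    periodLinGen Γ f ∈ parabolicHoms ℂ Γ ℂ := by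
  intro γ hγ
  obtain ⟨δ, k, hk⟩ := exists_conj_translation (γ : SL(2, ℤ)) hγ
  obtain ⟨F, hF, -⟩ := exists_primitive f
  obtain ⟨L, hL⟩ := exists_tendsto_smul f hF δ
  have hv : Tendsto (fun w : ℍ ↦ (k : ℝ) +ᵥ w) atImInfty atImInfty := by
    simp only [atImInfty, tendsto_comap_iff, Function.comp_def, vadd_im]
    exact tendsto_comap
  have h2 := (hL.comp hv).sub hL
  rw [sub_self] at h2
  refine tendsto_nhds_unique (tendsto_const_nhds.congr fun w ↦ ?_) h2
  rw [Function.comp_apply, ← hk w, periodLinGen_apply f hF γ (δ • w)]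

variable (Γ) in
/-- A cusp form of weight two with vanishing periods is zero. -/
theorem periodLinGen_injective : Function.Injective (periodLinGen Γ) := by
  rw [← LinearMap.ker_eq_bot, LinearMap.ker_eq_bot']
  intro f hf
  obtain ⟨F, hF, -⟩ := exists_primitive f
  let M : ModularForm Γ 0 :=
    { toFun := F
      slash_action_eq' := by
        rintro _ ⟨γ, hγ, rfl⟩
        funext z
        have h : periodLinGen Γ f (Additive.ofMul (⟨γ, hγ⟩ : Γ)) = 0 := by rw [hf]; rfl
        rw [periodLinGen_apply f hF _ z, sub_eq_zero] at h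
        show (F ∣[(0 : ℤ)] γ) z = F z
        rw [ModularForm.SL_slash_apply, neg_zero, zpow_zero, mul_one]
        exact h
      holo' := hF.mdifferentiable
      bdd_at_cusps' := fun {c} hc ↦ by
        rw [Subgroup.IsArithmetic.isCusp_iff_isCusp_SL2Z] at hc
        rw [OnePoint.isBoundedAt_iff_forall_SL2Z hc]
        intro δ _
        obtain ⟨L, hL⟩ := exists_tendsto_smul f hF δ
        have he : F ∣[(0 : ℤ)] δ = fun w : ℍ ↦ F (δ • w) := by
          funext w
          rw [ModularForm.SL_slash_apply, neg_zero, zpow_zero, mul_one]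
        rw [he]
        exact hL.isBigO_one ℝ }
  obtain ⟨c, hc⟩ := M.eq_const_of_weight_zero
  refine DFunLike.coe_injective (funext fun τ ↦ ?_)
  have h1 : (F ∘ ofComplex) = Function.const ℂ c := by
    rw [show F = Function.const ℍ c from hc]; rfl
  have h2 := hF τ
  rw [h1] at h2
  exact h2.unique (hasDerivAt_const _ _)

omit [Γ.FiniteIndex] in
/-- Homomorphisms into a torsion-free group kill the elements of finite order. -/
theorem eq_zero_of_isOfFinOrder {A : Type*} [AddCommGroup A] [IsAddTorsionFree A]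
    (φ : Additive Γ →+ A) {γ : Γ} (hγ : IsOfFinOrder γ) : φ (Additive.ofMul γ) = 0 := by
  obtain ⟨n, hn, hpow⟩ := hγ.exists_pow_eq_one
  have h : n • φ (Additive.ofMul γ) = 0 := by
    rw [← map_nsmul, ← ofMul_pow, hpow, ofMul_one, map_zero]
  exact (smul_eq_zero.mp h).resolve_left hn.ne'

omit [Γ.FiniteIndex] in
/-- An element of `SL(2, ℤ)` with `|trace| < 2` has order dividing `12`. -/
theorem pow_twelve_eq_one {γ : SL(2, ℤ)}
    (h : (γ : Matrix (Fin 2) (Fin 2) ℤ).trace ^ 2 < 4) : γ ^ 12 = 1 := by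
  have hch : (γ : Matrix (Fin 2) (Fin 2) ℤ) * γ
      = (γ : Matrix (Fin 2) (Fin 2) ℤ).trace • (γ : Matrix (Fin 2) (Fin 2) ℤ) - 1 := by
    have hd : (γ : Matrix (Fin 2) (Fin 2) ℤ).det = 1 := γ.2
    rw [Matrix.det_fin_two] at hd
    ext i j
    fin_cases i <;> fin_cases j <;>
      simp [Matrix.mul_apply, Fin.sum_univ_two, Matrix.trace_fin_two, -zsmul_eq_mul] <;>
      first | linear_combination hd | linear_combination -hd | ring1
  set X : Matrix (Fin 2) (Fin 2) ℤ := (γ : Matrix (Fin 2) (Fin 2) ℤ)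
  apply Subtype.ext
  rw [Matrix.SpecialLinearGroup.coe_pow, Matrix.SpecialLinearGroup.coe_one]
  have h1 : X.trace < 2 := by nlinarith
  have h2 : -2 < X.trace := by nlinarith
  have h6 : X ^ 6 = 1 ∨ X ^ 4 = 1 := by
    interval_cases ht : X.trace
    · left
      have h3 : X ^ 3 = 1 := by
        rw [pow_succ, pow_two, hch, sub_mul, smul_mul_assoc, hch]
        simp
      rw [show 6 = 3 * 2 from rfl, pow_mul, h3, one_pow]
    · right
      rw [show 4 = 2 * 2 from rfl, pow_mul, pow_two X, hch]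
      simp
    · left
      have h3 : X ^ 3 = -1 := by
        rw [pow_succ, pow_two, hch, sub_mul, smul_mul_assoc, hch]
        simp
      rw [show 6 = 3 * 2 from rfl, pow_mul, h3]
      simp
  rcases h6 with h6 | h6
  · rw [show 12 = 6 * 2 from rfl, pow_mul, h6, one_pow]
  · rw [show 12 = 4 * 3 from rfl, pow_mul, h6, one_pow]

omit [Γ.FiniteIndex] in
/-- For torsion-free values parabolic homomorphisms are cuspidal. -/
theorem mem_cuspidalHoms_of_mem_parabolicHoms {R A : Type*} [Semiring R] [AddCommGroup A]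
    [Module R A] [IsAddTorsionFree A] {φ : Additive Γ →+ A} (hφ : φ ∈ parabolicHoms R Γ A) :
    φ ∈ cuspidalHoms R Γ A := by
  intro γ hγ
  rcases hγ.lt_or_eq with h | h
  · refine eq_zero_of_isOfFinOrder φ (isOfFinOrder_iff_pow_eq_one.mpr ⟨12, by norm_num, ?_⟩)
    exact Subtype.ext (by rw [SubgroupClass.coe_pow, pow_twelve_eq_one h, OneMemClass.coe_one])
  · exact hφ γ h

variable (Γ) in
/-- The periods of a weight two cusp form form a cuspidal homomorphism. -/
theorem periodLinGen_mem_cuspidalHoms (f : CuspForm Γ 2) :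
    periodLinGen Γ f ∈ cuspidalHoms ℂ Γ ℂ :=
  mem_cuspidalHoms_of_mem_parabolicHoms (periodLinGen_mem_parabolicHoms Γ f)

end Fermat.Agent.DeligneSerre
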