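/- Hecke operators and diamond operators on `Hom(Γ₁(M), A)`. Owner: helper52 (DS). -/
import Fermat.Agent.DeligneSerre.Periods.Period
import Fermat.Agent.DeligneSerre.Nebentypus
import Fermat.Agent.Periods.Transfer
import Mathlib.RingTheory.Int.Basic

set_option autoImplicit false

noncomputable section

open UpperHalfPlane hiding I
open CongruenceSubgroup ModularCurve.Period
open scoped MatrixGroups ModularForm

namespace Fermat.Agent.DeligneSerre

open Fermat.Agent.Periods (IntMat IsPrimitive CosetStep gammaMat cuspidalHoms)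

variable {M p : ℕ}

theorem exists_gamma0_lift (hpM : p.Coprime M) :
    ∃ σ : SL(2, ℤ), σ 1 0 = (M : ℤ) ∧ σ 1 1 = (p : ℤ) := by
  obtain ⟨a, b, hab⟩ := Nat.Coprime.isCoprime hpM
  exact ⟨⟨!![a, -b; (M : ℤ), (p : ℤ)], by rw [Matrix.det_fin_two_of]; linear_combination hab⟩,
    rfl, rfl⟩

variable (M p) in
/-- An element of `Γ₀(M)` with lower right entry `p`. -/
def gamma0Lift : SL(2, ℤ) :=
  if h : p.Coprime M then (exists_gamma0_lift h).choose else 1

theorem gamma0Lift_spec (hpM : p.Coprime M) :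
    gamma0Lift M p 1 0 = (M : ℤ) ∧ gamma0Lift M p 1 1 = (p : ℤ) := by
  rw [gamma0Lift, dif_pos hpM]
  exact (exists_gamma0_lift hpM).choose_spec

theorem gamma0Lift_mem (hpM : p.Coprime M) : gamma0Lift M p ∈ Gamma0 M := by
  rw [Gamma0_mem, (gamma0Lift_spec hpM).1, Int.cast_natCast, ZMod.natCast_self]

variable (M p) in
/-- Corrects `(p 0; 0 1)` into the double coset of `(1 0; 0 p)` for `Γ₁(M)`. -/
def repTwist (x : Option (Fin p)) : SL(2, ℤ) :=
  x.elim (gamma0Lift M p) fun _ => 1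

variable (M p) in
/-- Coset representatives of the Hecke operator `T_p` for `Γ₁(M)`. -/
def repInt1 (x : Option (Fin p)) : IntMat :=
  (repTwist M p x : Matrix (Fin 2) (Fin 2) ℤ) * repInt p x

variable [hp : Fact p.Prime]

theorem det_repInt1 (x : Option (Fin p)) : (repInt1 M p x).det = p := by
  rw [repInt1, Matrix.det_mul, det_repInt, (repTwist M p x).det_coe, one_mul]

theorem det_repInt1_ne_zero (x : Option (Fin p)) : (repInt1 M p x).det ≠ 0 := by
  rw [det_repInt1]; exact_mod_cast hp.out.ne_zero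

omit hp in
/-- The representatives are `≡ (1 *; 0 p)` modulo `M`. -/
theorem repInt1_cast (hpM : p.Coprime M) (x : Option (Fin p)) :
    ((repInt1 M p x 0 0 : ℤ) : ZMod M) = 1 ∧ ((repInt1 M p x 1 0 : ℤ) : ZMod M) = 0 ∧
      ((repInt1 M p x 1 1 : ℤ) : ZMod M) = p := by
  rcases x with - | j
  · obtain ⟨h10, h11⟩ := gamma0Lift_spec hpM
    have hd := (gamma0Lift M p).det_coe
    rw [Matrix.det_fin_two, h10, h11] at hd
    have := congrArg (Int.cast : ℤ → ZMod M) hd
    push_cast at this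
    rw [ZMod.natCast_self, mul_zero, sub_zero] at this
    simp [repInt1, repTwist, repInt, Matrix.mul_apply, Fin.sum_univ_two, h10, h11, this]
  · simp [repInt1, repTwist, repInt, Matrix.mul_apply, Fin.sum_univ_two]

theorem repInt1_separated {x y : Option (Fin p)} {g : SL(2, ℤ)}
    (h : repInt1 M p x = (g : Matrix (Fin 2) (Fin 2) ℤ) * repInt1 M p y) : x = y := by
  refine repInt_eq_of_mul_eq (g := (repTwist M p x)⁻¹ * g * repTwist M p y) ?_
  rw [repInt1, repInt1] at h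
  rw [Matrix.SpecialLinearGroup.coe_mul, Matrix.SpecialLinearGroup.coe_mul, Matrix.mul_assoc,
    Matrix.mul_assoc, ← h, ← Matrix.mul_assoc, ← Matrix.SpecialLinearGroup.coe_mul,
    inv_mul_cancel, Matrix.SpecialLinearGroup.coe_one, Matrix.one_mul]

theorem exists_step (hpM : p.Coprime M) (γ : Gamma1 M) (x : Option (Fin p)) :
    ∃ (y : Option (Fin p)) (g : Gamma1 M),
      repInt1 M p x * gammaMat γ = gammaMat g * repInt1 M p y := by
  obtain ⟨g₀, y, hy⟩ := exists_eq_mul_repInt (p := p) (repInt1 M p x * gammaMat γ) (by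
    rw [Matrix.det_mul, det_repInt1, Periods.gammaMat_det, mul_one])
  set g : SL(2, ℤ) := g₀ * (repTwist M p y)⁻¹
  have hg : repInt1 M p x * gammaMat γ = (g : Matrix (Fin 2) (Fin 2) ℤ) * repInt1 M p y := by
    rw [hy, repInt1, ← Matrix.mul_assoc, ← Matrix.SpecialLinearGroup.coe_mul, inv_mul_cancel_right]
  suffices g ∈ Gamma1 M from ⟨y, ⟨g, this⟩, hg⟩
  obtain ⟨x0, x1, x2⟩ := repInt1_cast hpM x
  obtain ⟨y0, y1, y2⟩ := repInt1_cast hpM y
  obtain ⟨c0, c1, c2⟩ := (Gamma1_mem M (γ : SL(2, ℤ))).mp γ.2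
  have hu : IsUnit ((p : ℕ) : ZMod M) := (ZMod.isUnit_iff_coprime p M).mpr hpM
  have e : ∀ i j, ((repInt1 M p x i 0 : ℤ) : ZMod M) * (gammaMat γ 0 j : ℤ)
      + (repInt1 M p x i 1 : ℤ) * (gammaMat γ 1 j : ℤ)
      = ((g i 0 : ℤ) : ZMod M) * (repInt1 M p y 0 j : ℤ) + (g i 1 : ℤ) * (repInt1 M p y 1 j : ℤ) := by
    intro i j
    have := congrArg (Int.cast : ℤ → ZMod M) (congrFun (congrFun hg i) j)
    simpa [Matrix.mul_apply, Fin.sum_univ_two] using this
  have e00 := e 0 0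
  have e10 := e 1 0
  have e11 := e 1 1
  simp only [x0, x1, x2, y0, y1, y2, gammaMat, c0, c1, c2, mul_zero, mul_one, zero_mul,
    add_zero, zero_add] at e00 e10 e11
  rw [← e10, zero_mul, zero_add] at e11
  exact (Gamma1_mem M g).mpr ⟨e00.symm, hu.mul_eq_right.mp e11.symm, e10.symm⟩

variable (hpM : p.Coprime M)

/-- The index moved to by right multiplication with `γ`. -/
def stepIdx (γ : Gamma1 M) (x : Option (Fin p)) : Option (Fin p) :=
  (exists_step hpM γ x).choose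

/-- The element `g` with `Mₓ γ = g M_{σ x}`. -/
def stepElt (γ : Gamma1 M) (x : Option (Fin p)) : Gamma1 M :=
  (exists_step hpM γ x).choose_spec.choose

theorem step_spec (γ : Gamma1 M) (x : Option (Fin p)) :
    repInt1 M p x * gammaMat γ = gammaMat (stepElt hpM γ x) * repInt1 M p (stepIdx hpM γ x) :=
  (exists_step hpM γ x).choose_spec.choose_spec

theorem stepIdx_bijective (γ : Gamma1 M) : Function.Bijective (stepIdx hpM γ) := by
  refine Finite.injective_iff_bijective.mp fun a b hab => ?_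
  have ha := step_spec hpM γ a
  have hb := step_spec hpM γ b
  rw [hab] at ha
  refine repInt1_separated (M := M)
    (g := ((stepElt hpM γ a * (stepElt hpM γ b)⁻¹ : Gamma1 M) : SL(2, ℤ))) ?_
  refine Periods.intMat_mul_right_cancel (M := gammaMat γ)
    (by rw [Periods.gammaMat_det]; exact one_ne_zero) ?_
  show repInt1 M p a * gammaMat γ
    = gammaMat (stepElt hpM γ a * (stepElt hpM γ b)⁻¹) * repInt1 M p b * gammaMat γ
  rw [Matrix.mul_assoc, hb, ← Matrix.mul_assoc, ← Periods.gammaMat_mul, inv_mul_cancel_right, ha]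

/-- Right multiplication by `γ` as a permutation of the representatives. -/
def stepPerm (γ : Gamma1 M) : Equiv.Perm (Option (Fin p)) :=
  Equiv.ofBijective _ (stepIdx_bijective hpM γ)

theorem cosetStep_stepPerm (γ : Gamma1 M) :
    CosetStep (repInt1 M p) γ (stepPerm hpM γ) (stepElt hpM γ) :=
  step_spec hpM γ

theorem sum_stepElt_mul {A : Type*} [AddCommGroup A] (φ : Additive (Gamma1 M) →+ A)
    (γ δ : Gamma1 M) :
    ∑ x, φ (Additive.ofMul (stepElt hpM (γ * δ) x)) =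
      (∑ x, φ (Additive.ofMul (stepElt hpM γ x))) + ∑ x, φ (Additive.ofMul (stepElt hpM δ x)) := by
  rw [CosetStep.sum_eq (fun x => det_repInt1_ne_zero x) (cosetStep_stepPerm hpM (γ * δ))
    ((cosetStep_stepPerm hpM γ).comp (cosetStep_stepPerm hpM δ)) φ]
  simp only [ofMul_mul, map_add, Finset.sum_add_distrib]
  rw [Equiv.sum_comp (stepPerm hpM γ) fun x => φ (Additive.ofMul (stepElt hpM δ x))]

variable (R : Type*) [Semiring R] (A : Type*) [AddCommGroup A] [Module R A]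

/-- The Hecke operator `T_p`, `p ∤ M`, on homomorphisms `Γ₁(M) → A`. -/
def heckeHom1 : (Additive (Gamma1 M) →+ A) →ₗ[R] (Additive (Gamma1 M) →+ A) where
  toFun φ := AddMonoidHom.mk' (fun γ => ∑ x, φ (Additive.ofMul (stepElt hpM (Additive.toMul γ) x)))
    fun γ δ => sum_stepElt_mul hpM φ (Additive.toMul γ) (Additive.toMul δ)
  map_add' φ ψ := by ext γ; simp [Finset.sum_add_distrib]
  map_smul' c φ := by ext γ; simp [Finset.smul_sum]

theorem heckeHom1_apply (φ : Additive (Gamma1 M) →+ A) (γ : Gamma1 M) :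
    heckeHom1 hpM R A φ (Additive.ofMul γ) = ∑ x, φ (Additive.ofMul (stepElt hpM γ x)) :=
  rfl

variable {R A}

theorem heckeHom1_comp {B : Type*} [AddCommGroup B] [Module R B] (f : A →+ B)
    (φ : Additive (Gamma1 M) →+ A) :
    heckeHom1 hpM R B (f.comp φ) = f.comp (heckeHom1 hpM R A φ) := by
  refine AddMonoidHom.ext fun y => ?_
  obtain ⟨γ, rfl⟩ := Additive.ofMul.surjective y
  simp [heckeHom1_apply, map_sum]

theorem heckeHom1_mem_cuspidalHoms {φ : Additive (Gamma1 M) →+ A}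
    (hφ : φ ∈ cuspidalHoms R (Gamma1 M) A) :
    heckeHom1 hpM R A φ ∈ cuspidalHoms R (Gamma1 M) A := by
  intro γ hγ
  refine (cosetStep_stepPerm hpM γ).sum_eq_zero (fun x => det_repInt1_ne_zero x) φ
    fun n y hy => hφ y ?_
  rw [show ((y : SL(2, ℤ)) : Matrix (Fin 2) (Fin 2) ℤ).trace = _ from hy]
  exact Periods.trace_pow_sq_le_four (Periods.gammaMat_det γ) hγ n

/-! ### Diamond operators -/

omit hp in
theorem conj_mem_Gamma1 (δ : Gamma0 M) (γ : Gamma1 M) :
    (δ : SL(2, ℤ)) * γ * (δ : SL(2, ℤ))⁻¹ ∈ Gamma1 M := by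
  obtain ⟨γ₀, hγ₀, hγ⟩ : ∃ γ₀ : Gamma0 M, γ₀ ∈ Gamma1' M ∧ (γ₀ : SL(2, ℤ)) = γ := by
    obtain ⟨⟨γ₀, h⟩, -, e⟩ := γ.2
    exact ⟨γ₀, h, e⟩
  have hn : (Gamma1' M).Normal := MonoidHom.normal_ker _
  exact ⟨⟨δ * γ₀ * δ⁻¹, hn.conj_mem _ hγ₀ δ⟩, trivial, by simp [← hγ]⟩

/-- Conjugation by an element of `Γ₀(M)` on `Γ₁(M)`. -/
def diamondConj (δ : Gamma0 M) : Gamma1 M →* Gamma1 M where
  toFun γ := ⟨(δ : SL(2, ℤ)) * γ * (δ : SL(2, ℤ))⁻¹, conj_mem_Gamma1 δ γ⟩
  map_one' := by ext1; simp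
  map_mul' γ γ' := by ext1; simp [mul_assoc]

variable (R A) in
/-- The diamond operator of `δ ∈ Γ₀(M)` on homomorphisms `Γ₁(M) → A`. -/
def diamondHom (δ : Gamma0 M) :
    (Additive (Gamma1 M) →+ A) →ₗ[R] (Additive (Gamma1 M) →+ A) where
  toFun φ := φ.comp (MonoidHom.toAdditive (diamondConj δ))
  map_add' _ _ := rfl
  map_smul' _ _ := rfl

omit hp in
theorem diamondHom_apply (δ : Gamma0 M) (φ : Additive (Gamma1 M) →+ A) (γ : Gamma1 M) :
    diamondHom R A δ φ (Additive.ofMul γ) = φ (Additive.ofMul (diamondConj δ γ)) :=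
  rfl

omit hp in
theorem diamondHom_mem_cuspidalHoms (δ : Gamma0 M) {φ : Additive (Gamma1 M) →+ A}
    (hφ : φ ∈ cuspidalHoms R (Gamma1 M) A) :
    diamondHom R A δ φ ∈ cuspidalHoms R (Gamma1 M) A := by
  intro γ hγ
  refine hφ (diamondConj δ γ) ?_
  show (((δ : SL(2, ℤ)) * γ * (δ : SL(2, ℤ))⁻¹ : SL(2, ℤ)) :
    Matrix (Fin 2) (Fin 2) ℤ).trace ^ 2 ≤ 4
  rw [Matrix.SpecialLinearGroup.coe_mul, Matrix.SpecialLinearGroup.coe_mul,
    Matrix.trace_mul_cycle, ← Matrix.SpecialLinearGroup.coe_mul, inv_mul_cancel,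
    Matrix.SpecialLinearGroup.coe_one, Matrix.one_mul]
  exact hγ

/-! ### Compatibility with the periods -/

variable [NeZero M] {ψ : DirichletCharacter ℂ M}

omit hp in
/-- Diamond operators act on the periods of a nebentypus form by the character. -/
theorem periodLinGen_diamond (f : nebSpace M 2 ψ) (δ : Gamma0 M) :
    diamondHom ℂ ℂ δ (periodLinGen (Gamma1 M) (f : CuspForm (Gamma1 M) 2)) =
      ψ (((δ : SL(2, ℤ)) 1 1 : ℤ) : ZMod M) • periodLinGen (Gamma1 M) (f : CuspForm (Gamma1 M) 2) := by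
  obtain ⟨F, hF, -⟩ := exists_primitive (f : CuspForm (Gamma1 M) 2)
  set c := ψ (((δ : SL(2, ℤ)) 1 1 : ℤ) : ZMod M)
  have h1 : IsPrimitive (c • ⇑(f : CuspForm (Gamma1 M) 2)) (fun τ => F ((δ : SL(2, ℤ)) • τ)) := by
    have h : ⇑(f : CuspForm (Gamma1 M) 2) ∣[(2 : ℤ)] (δ : SL(2, ℤ))
        = c • ⇑(f : CuspForm (Gamma1 M) 2) := f.2 (δ : SL(2, ℤ)) δ.2
    rw [← h]
    exact hF.comp_SL_smul _
  refine AddMonoidHom.ext fun x => ?_
  obtain ⟨γ, rfl⟩ := Additive.ofMul.surjective x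
  set z : ℍ := UpperHalfPlane.I
  have h2 := h1.sub_eq_sub (IsPrimitive.const_smul hF c) ((γ : SL(2, ℤ)) • z) z
  simp only [Pi.smul_apply, smul_eq_mul] at h2
  rw [AddMonoidHom.smul_apply, diamondHom_apply, smul_eq_mul,
    periodLinGen_apply _ hF _ ((δ : SL(2, ℤ)) • z), periodLinGen_apply _ hF γ z]
  have e : ((diamondConj δ γ : Gamma1 M) : SL(2, ℤ)) • (δ : SL(2, ℤ)) • z
      = (δ : SL(2, ℤ)) • (γ : SL(2, ℤ)) • z := by
    rw [← mul_smul, ← mul_smul]
    congr 1
    show (δ : SL(2, ℤ)) * γ * (δ : SL(2, ℤ))⁻¹ * δ = _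
    group
  rw [e]
  linear_combination h2

variable (M p) in
/-- The representatives in `GL(2, ℝ)`. -/
def repGL1 (x : Option (Fin p)) : GL (Fin 2) ℝ :=
  (repTwist M p x : GL (Fin 2) ℝ) * rep p x

omit [NeZero M] in
theorem val_repGL1 (x : Option (Fin p)) :
    (repGL1 M p x : Matrix (Fin 2) (Fin 2) ℝ) = (repInt1 M p x).map (Int.cast : ℤ → ℝ) := by
  rw [repGL1, repInt1, Units.val_mul, rep_val]
  exact (Matrix.map_mul (L := (repTwist M p x : Matrix (Fin 2) (Fin 2) ℤ)) (M := repInt p x)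
    (f := Int.castRingHom ℝ)).symm

omit [NeZero M] in
include hpM in
/-- The slashes by the representatives add up to the nebentypus Hecke operator. -/
theorem sum_slash_repGL1 {f : ℍ → ℂ} (hf : HasNeb (N := M) 2 ψ f) :
    ∑ x, f ∣[(2 : ℤ)] repGL1 M p x = nebHecke 2 ψ p f := by
  rw [nebHecke_eq_sum]
  refine Finset.sum_congr rfl fun x _ => ?_
  rw [repGL1, SlashAction.slash_mul]
  rcases x with - | j
  · simp only [repTwist, Option.elim_none, repWeight]
    rw [hf _ (gamma0Lift_mem hpM), (gamma0Lift_spec hpM).2, Int.cast_natCast, ModularForm.smul_slash]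
    simp [rep, ModularForm.σ_heckeDiagMatrix]
  · simp [repTwist, repWeight]

/-- The period map intertwines `T_p` with the transfer. -/
theorem periodLinGen_nebOp (f : nebSpace M 2 ψ) :
    heckeHom1 hpM ℂ ℂ (periodLinGen (Gamma1 M) (f : CuspForm (Gamma1 M) 2)) =
      periodLinGen (Gamma1 M) (nebOp M 2 ψ hp.out f : CuspForm (Gamma1 M) 2) := by
  obtain ⟨F, hF, -⟩ := exists_primitive (f : CuspForm (Gamma1 M) 2)
  have hdet : ∀ x, 0 < (repGL1 M p x).val.det := fun x => by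
    rw [val_repGL1]
    have h := (RingHom.map_det (Int.castRingHom ℝ) (repInt1 M p x)).symm
    rw [det_repInt1] at h
    simp only [RingHom.mapMatrix_apply, Int.coe_castRingHom, Int.cast_natCast] at h
    rw [h]
    exact_mod_cast hp.out.pos
  have hG : IsPrimitive ⇑(nebOp M 2 ψ hp.out f : CuspForm (Gamma1 M) 2)
      (fun τ => ∑ x, F (repGL1 M p x • τ)) := by
    rw [coe_nebOp, ← sum_slash_repGL1 hpM f.2]
    intro τ
    have h := HasDerivAt.fun_sum (u := (Finset.univ : Finset (Option (Fin p)))) fun x _ =>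
      (hF.comp_smul (hdet x) : IsPrimitive _ _) τ
    simpa [Function.comp_def] using h
  refine AddMonoidHom.ext fun y => ?_
  obtain ⟨γ, rfl⟩ := Additive.ofMul.surjective y
  set z : ℍ := UpperHalfPlane.I
  rw [periodLinGen_apply _ hG γ z, heckeHom1_apply]
  have hsmul : ∀ x, repGL1 M p x • ((γ : SL(2, ℤ)) • z) =
      ((stepElt hpM γ x : Gamma1 M) : SL(2, ℤ)) • (repGL1 M p (stepIdx hpM γ x) • z) := by
    intro x
    rw [ModularGroup.sl_moeb, ModularGroup.sl_moeb, smul_smul, smul_smul]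
    congr 1
    apply Matrix.GeneralLinearGroup.ext
    intro a b
    have h := congrArg (fun X : IntMat => X.map (Int.castRingHom ℝ)) (step_spec hpM γ x)
    simp only [Matrix.map_mul] at h
    rw [Units.val_mul, Units.val_mul, val_repGL1, val_repGL1]
    exact congrFun (congrFun h a) b
  simp only [hsmul]
  rw [Finset.sum_congr rfl fun x _ => periodLinGen_apply _ hF (stepElt hpM γ x)
    (repGL1 M p (stepIdx hpM γ x) • z), Finset.sum_sub_distrib,
    (stepIdx_bijective hpM γ).sum_comp fun x => F (repGL1 M p x • z)]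

end Fermat.Agent.DeligneSerre
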