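/- Eigenvectors mod `ℓ` of commuting integral matrices. Owner: helper52 (DS). -/
import Mathlib.LinearAlgebra.LinearIndependent.BaseChange
import Mathlib.LinearAlgebra.Eigenspace.Minpoly
import Mathlib.LinearAlgebra.Matrix.ToLin
import Mathlib.Algebra.Module.ZMod
import Mathlib.Algebra.Algebra.ZMod
import Mathlib.Algebra.Field.ZMod
import Mathlib.RingTheory.Artinian.Module
import Mathlib.RingTheory.Adjoin.Basic
import Mathlib.RingTheory.IntegralClosure.IsIntegralClosure.Basic

set_option autoImplicit false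

noncomputable section

open Polynomial

namespace Fermat.Agent.DeligneSerre

/-- A character of a commutative algebra of endomorphisms of a finite-dimensional space is the
eigen-character of a nonzero vector. -/
theorem exists_eigenvector_of_algHom {K V : Type*} [Field K] [AddCommGroup V] [Module K V]
    [FiniteDimensional K V] (𝒜 : Subalgebra K (Module.End K V))
    (hcomm : ∀ a ∈ 𝒜, ∀ b ∈ 𝒜, Commute a b) (χ : 𝒜 →ₐ[K] K) :
    ∃ v : V, v ≠ 0 ∧ ∀ a : 𝒜, (a : Module.End K V) v = χ a • v := by
  suffices H : ∀ W : Submodule K V,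
      (∀ a : 𝒜, ∀ w ∈ W, (a : Module.End K V) w ∈ W) →
      (∀ a : 𝒜, (∀ w ∈ W, (a : Module.End K V) w = 0) → χ a = 0) →
      ∃ v : V, v ≠ 0 ∧ ∀ a : 𝒜, (a : Module.End K V) v = χ a • v by
    refine H ⊤ (fun _ _ _ => trivial) fun a ha => ?_
    rw [show a = 0 from Subtype.ext (LinearMap.ext fun w => ha w trivial), map_zero]
  intro W
  induction W using WellFoundedLT.induction with
  | _ W ih =>
    intro hinv hfaith
    by_cases hall : ∀ (a : 𝒜), ∀ w ∈ W, (a : Module.End K V) w = χ a • w
    · obtain ⟨w, hw, hw0⟩ : ∃ w ∈ W, w ≠ (0 : V) := by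
        by_contra! h
        exact one_ne_zero ((map_one χ).symm.trans (hfaith 1 fun w hw => by simp [h w hw]))
      exact ⟨w, hw0, fun a => hall a w hw⟩
    push Not at hall
    obtain ⟨b, w₀, hw₀, hne⟩ := hall
    set X : 𝒜 := b - algebraMap K 𝒜 (χ b) with hX
    have hχX : χ X = 0 := by simp [hX]
    have hXw : (X : Module.End K V) w₀ ≠ 0 := by
      simpa [hX, Algebra.algebraMap_eq_smul_one, sub_eq_zero] using hne
    refine ih (W ⊓ LinearMap.ker (X : Module.End K V)) ?_ ?_ ?_
    · exact lt_of_le_of_ne inf_le_left fun h => hXw (SetLike.le_def.mp h.symm.le hw₀).2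
    · intro a w hw
      refine ⟨hinv a w hw.1, LinearMap.mem_ker.mpr ?_⟩
      rw [← Module.End.mul_apply, (hcomm _ X.2 _ a.2).eq, Module.End.mul_apply,
        LinearMap.mem_ker.mp hw.2, map_zero]
    · intro a ha
      have hkill : ∀ (j : ℕ), ∀ w ∈ W, ((X ^ j : 𝒜) : Module.End K V) w = 0 →
          ((a ^ j : 𝒜) : Module.End K V) w = 0 := by
        intro j
        induction j with
        | zero => intro w _ h; exact h
        | succ j ihj =>
          intro w hw h
          have h1 : (a : Module.End K V) (((X ^ j : 𝒜) : Module.End K V) w) = 0 := by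
            refine ha _ ⟨hinv _ _ hw, LinearMap.mem_ker.mpr ?_⟩
            rw [← Module.End.mul_apply, ← Subalgebra.coe_mul, ← pow_succ']
            exact h
          have h2 : ((X ^ j : 𝒜) : Module.End K V) ((a : Module.End K V) w) = 0 := by
            rw [← Module.End.mul_apply, (hcomm _ (X ^ j).2 _ a.2).eq, Module.End.mul_apply, h1]
          have := ihj _ (hinv a w hw) h2
          rwa [← Module.End.mul_apply, ← Subalgebra.coe_mul, ← pow_succ] at this
      have hq0 : minpoly K (X : Module.End K V) ≠ 0 :=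
        minpoly.ne_zero (Algebra.IsIntegral.isIntegral _)
      obtain ⟨g, hg, hndvd⟩ := exists_eq_pow_rootMultiplicity_mul_and_not_dvd _ hq0 (0 : K)
      set m := rootMultiplicity (0 : K) (minpoly K (X : Module.End K V))
      rw [map_zero, sub_zero] at hg hndvd
      have hg0 : g.eval 0 ≠ 0 := fun h => hndvd (by
        rw [Polynomial.X_dvd_iff, ← Polynomial.coeff_zero_eq_eval_zero] at *; exact h)
      have hzero : (X ^ m * aeval X g : 𝒜) = 0 := by
        apply Subtype.ext
        rw [ZeroMemClass.coe_zero, ← minpoly.aeval K (X : Module.End K V), hg, map_mul, map_pow,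
          aeval_X, Subalgebra.coe_mul, SubmonoidClass.coe_pow]
        exact congrArg _ (Polynomial.aeval_algHom_apply 𝒜.val X g).symm
      have : χ (a ^ m * aeval X g) = 0 := by
        refine hfaith _ fun w hw => ?_
        rw [Subalgebra.coe_mul, Module.End.mul_apply]
        refine hkill m _ (hinv _ w hw) ?_
        rw [← Module.End.mul_apply, ← Subalgebra.coe_mul, hzero]
        rfl
      rw [map_mul, map_pow, ← Polynomial.aeval_algHom_apply, hχX, Polynomial.coe_aeval_eq_eval,
        mul_eq_zero, or_iff_left hg0] at this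
      exact eq_zero_of_pow_eq_zero this

variable {n : Type*} [Fintype n] [DecidableEq n]

/-- A ring homomorphism to characteristic `ℓ` kills the integral matrices divisible by `ℓ`. -/
theorem ringHom_eq_zero_of_forall_dvd {K : Type*} [Field K] (ℓ : ℕ) [CharP K ℓ]
    {B : Subring (Matrix n n ℤ)} (χ : B →+* K) (b : B)
    (hb : ∀ i j, (ℓ : ℤ) ∣ (b : Matrix n n ℤ) i j) : χ b = 0 := by
  choose c hc using hb
  let C : Matrix n n ℤ := Matrix.of c
  have hbC : (b : Matrix n n ℤ) = algebraMap ℤ (Matrix n n ℤ) (ℓ : ℤ) * C := by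
    rw [← Algebra.smul_def]
    ext i j
    simp [C, hc i j]
  let p : ℤ[X] := C.charpoly.scaleRoots (ℓ : ℤ)
  have hp0 : Polynomial.aeval (b : Matrix n n ℤ) p = 0 := by
    rw [hbC]
    exact Polynomial.scaleRoots_aeval_eq_zero C.aeval_self_charpoly
  have hpB : Polynomial.aeval b p = 0 := by
    apply Subtype.ext
    rw [ZeroMemClass.coe_zero, ← hp0]
    exact (Polynomial.aeval_algHom_apply B.subtype.toIntAlgHom b p).symm
  have h1 : Polynomial.aeval (χ b) p = 0 := by
    rw [show χ b = χ.toIntAlgHom b from rfl, Polynomial.aeval_algHom_apply, hpB, map_zero]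
  have hl : ((ℓ : ℤ) : K) = 0 := by simp
  have hp : p.map (Int.castRingHom K) = Polynomial.X ^ Fintype.card n := by
    ext i
    rw [Polynomial.coeff_map, Polynomial.coeff_scaleRoots, map_mul, map_pow, Polynomial.coeff_X_pow,
      Matrix.charpoly_natDegree_eq_dim]
    rcases lt_trichotomy i (Fintype.card n) with h | h | h
    · rw [if_neg h.ne]
      simp [zero_pow (Nat.sub_ne_zero_of_lt h)]
    · subst h
      have := C.charpoly_monic.coeff_natDegree
      rw [Matrix.charpoly_natDegree_eq_dim] at this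
      simp [this]
    · rw [if_neg h.ne', Polynomial.coeff_eq_zero_of_natDegree_lt (by
        rwa [Matrix.charpoly_natDegree_eq_dim]), map_zero, zero_mul]
  rw [Polynomial.aeval_def, Polynomial.eval₂_eq_eval_map,
    show algebraMap ℤ K = Int.castRingHom K from rfl, hp, Polynomial.eval_pow, Polynomial.eval_X] at h1
  exact eq_zero_of_pow_eq_zero h1

/-- A character mod `ℓ` of a commutative ring of integral matrices is the eigen-character of a
nonzero vector mod `ℓ`. -/
theorem exists_eigenvector_of_ringHom {K : Type*} [Field K] (ℓ : ℕ) [Fact ℓ.Prime] [CharP K ℓ]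
    (B : Subring (Matrix n n ℤ)) (hcomm : ∀ a ∈ B, ∀ b ∈ B, Commute a b) (χ : B →+* K) :
    ∃ v : n → K, v ≠ 0 ∧
      ∀ b : B, Matrix.mulVec ((b : Matrix n n ℤ).map (fun z => (z : K))) v = χ b • v := by
  classical
  let : Algebra (ZMod ℓ) K := ZMod.algebra K ℓ
  let π : B →+* Matrix n n (ZMod ℓ) := ((Int.castRingHom (ZMod ℓ)).mapMatrix).comp B.subtype
  let ι : Matrix n n (ZMod ℓ) →+* Matrix n n K := (algebraMap (ZMod ℓ) K).mapMatrix
  let ψ : B →+* Matrix n n K := ι.comp π
  have hψ : ∀ b : B, ψ b = (b : Matrix n n ℤ).map (fun z => (z : K)) := fun b => by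
    ext i j
    simp [ψ, ι, π]
  have hker : RingHom.ker π ≤ RingHom.ker χ := fun b hb =>
    RingHom.mem_ker.mpr <| ringHom_eq_zero_of_forall_dvd ℓ χ b fun i j => by
      rw [← ZMod.intCast_zmod_eq_zero_iff_dvd]
      have h0 : π b = 0 := RingHom.mem_ker.mp hb
      exact congrFun (congrFun h0 i) j
  let S : Submodule (ZMod ℓ) (Matrix n n (ZMod ℓ)) :=
    AddSubgroup.toZModSubmodule ℓ π.toAddMonoidHom.range
  let bs := Module.finBasis (ZMod ℓ) S
  have hmem : ∀ i, ∃ b : B, π b = (bs i : Matrix n n (ZMod ℓ)) := fun i => (bs i).2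
  choose bb hbb using hmem
  have hind : LinearIndependent K (fun i => ψ (bb i)) := by
    have h1 : LinearIndependent (ZMod ℓ)
        (fun i => fun x : n × n => (bs i : Matrix n n (ZMod ℓ)) x.1 x.2) := by
      let e : Matrix n n (ZMod ℓ) →ₗ[ZMod ℓ] ((n × n) → ZMod ℓ) :=
        { toFun := fun M x => M x.1 x.2, map_add' := fun _ _ => rfl, map_smul' := fun _ _ => rfl }
      have he : Function.Injective e := fun M M' hM => by
        ext i j; exact congrFun hM (i, j)
      exact (bs.linearIndependent.map' S.subtype S.ker_subtype).map' e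
        (LinearMap.ker_eq_bot.mpr he)
    have h2 := (linearIndependent_algebraMap_comp_iff (S := K)).mpr h1
    let e' : Matrix n n K →ₗ[K] ((n × n) → K) :=
      { toFun := fun M x => M x.1 x.2, map_add' := fun _ _ => rfl, map_smul' := fun _ _ => rfl }
    refine LinearIndependent.of_comp e' ?_
    have key : (⇑e' ∘ fun i => ψ (bb i)) = fun i => ⇑(algebraMap (ZMod ℓ) K) ∘
        fun x : n × n => (bs i : Matrix n n (ZMod ℓ)) x.1 x.2 := by
      funext i x
      show ι (π (bb i)) x.1 x.2 = _
      rw [hbb]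
      rfl
    rw [key]
    exact h2
  -- a linear functional extending `χ`
  obtain ⟨L, hL⟩ := ((Module.Basis.span hind).constr K fun i => χ (bb i)).exists_extend
  have hLχ : ∀ b : B, L (ψ b) = χ b := by
    intro b
    have hb : π b ∈ S := ⟨b, rfl⟩
    set c := bs.repr ⟨π b, hb⟩
    let b' : B := ∑ i, ((c i).val : B) * bb i
    have hb' : π b' = π b := by
      rw [show π b = ((∑ i, c i • bs i : S) : Matrix n n (ZMod ℓ)) by rw [bs.sum_repr]]
      simp only [b', map_sum, map_mul, map_natCast, hbb, Submodule.coe_sum, Submodule.coe_smul]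
      refine Finset.sum_congr rfl fun i _ => ?_
      rw [← nsmul_eq_mul, ← Nat.cast_smul_eq_nsmul (ZMod ℓ), ZMod.natCast_zmod_val]
    have hχ : χ b = χ b' := by
      rw [← sub_eq_zero, ← map_sub]
      exact hker (by rw [RingHom.mem_ker, map_sub, hb', sub_self])
    have hψb : ψ b = ψ b' := by simp only [ψ, RingHom.comp_apply, hb']
    rw [hχ, hψb]
    simp only [b', map_sum, map_mul, map_natCast]
    refine Finset.sum_congr rfl fun i _ => ?_
    rw [← nsmul_eq_mul, map_nsmul, nsmul_eq_mul]
    congr 1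
    have hsp : ψ (bb i) = ((Module.Basis.span hind i : Submodule.span K _) : Matrix n n K) := by
      rw [Module.Basis.span_apply]
    rw [hsp]
    exact (LinearMap.congr_fun hL _).trans (Module.Basis.constr_basis _ _ _ _)
  let 𝒜 : Subalgebra K (Matrix n n K) := Algebra.adjoin K (Set.range ψ)
  have hspan : Subalgebra.toSubmodule 𝒜 = Submodule.span K (Set.range ψ) := by
    rw [Algebra.adjoin_eq_span]
    congr 1
    rw [show Set.range ψ = ((MonoidHom.mrange ψ.toMonoidHom : Submonoid (Matrix n n K)) :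
      Set (Matrix n n K)) from rfl, Submonoid.closure_eq]
  have hmul : ∀ x ∈ 𝒜, ∀ y ∈ 𝒜, L (x * y) = L x * L y := by
    intro x hx y hy
    rw [← Subalgebra.mem_toSubmodule, hspan] at hx hy
    induction hx using Submodule.span_induction with
    | mem x hx =>
      obtain ⟨a, rfl⟩ := hx
      induction hy using Submodule.span_induction with
      | mem y hy =>
        obtain ⟨b, rfl⟩ := hy
        rw [← map_mul, hLχ, hLχ, hLχ, map_mul]
      | zero => simp
      | add y z _ _ h1 h2 => simp [mul_add, h1, h2]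
      | smul r y _ h1 => simp [h1, mul_left_comm]
    | zero => simp
    | add x z _ _ h1 h2 => simp [add_mul, h1, h2]
    | smul r x _ h1 => simp [h1, mul_assoc]
  have h1 : L 1 = 1 := by rw [← map_one ψ, hLχ, map_one]
  have hAcomm : ∀ a ∈ 𝒜, ∀ b ∈ 𝒜, Commute a b := by
    have : ∀ x ∈ Set.range ψ, ∀ y ∈ Set.range ψ, Commute x y := by
      rintro _ ⟨a, rfl⟩ _ ⟨b, rfl⟩
      have hab : a * b = b * a := Subtype.ext (hcomm _ a.2 _ b.2).eq
      exact show ψ a * ψ b = ψ b * ψ a by rw [← map_mul, ← map_mul, hab]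
    intro a ha b hb
    exact Algebra.commute_of_mem_adjoin_of_forall_mem_commute hb fun y hy =>
      (Algebra.commute_of_mem_adjoin_of_forall_mem_commute ha fun x hx => this y hy x hx).symm
  let e := (Matrix.toLinAlgEquiv' : Matrix n n K ≃ₐ[K] _)
  let Λ : 𝒜 →ₐ[K] K :=
    AlgHom.ofLinearMap (L ∘ₗ 𝒜.val.toLinearMap) h1 fun x y => hmul _ x.2 _ y.2
  obtain ⟨v, hv0, hv⟩ := exists_eigenvector_of_algHom (𝒜.map e.toAlgHom)
    (by
      rintro _ ⟨a, ha, rfl⟩ _ ⟨b, hb, rfl⟩
      exact (hAcomm a ha b hb).map _)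
    (Λ.comp ((e.subalgebraMap 𝒜).symm : _ →ₐ[K] 𝒜))
  refine ⟨v, hv0, fun b => ?_⟩
  have hb : ψ b ∈ 𝒜 := Algebra.subset_adjoin ⟨b, rfl⟩
  have := hv (e.subalgebraMap 𝒜 ⟨ψ b, hb⟩)
  rw [show (Λ.comp ((e.subalgebraMap 𝒜).symm : _ →ₐ[K] 𝒜)) (e.subalgebraMap 𝒜 ⟨ψ b, hb⟩)
    = Λ ⟨ψ b, hb⟩ from congrArg Λ ((e.subalgebraMap 𝒜).symm_apply_apply _)] at this
  rw [← hψ, ← hLχ]
  exact this

end Fermat.Agent.DeligneSerre
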