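/- Mod `ℓ` eigen-functionals on a stable lattice of functionals. Owner: helper52 (DS). -/
import Fermat.Agent.DeligneSerre.Periods.ModEigen
import Mathlib.LinearAlgebra.FreeModule.PID
import Mathlib.LinearAlgebra.Matrix.ToLin
import Mathlib.LinearAlgebra.Dual.Defs

set_option autoImplicit false

noncomputable section

namespace Fermat.Agent.DeligneSerre

/-- If a finitely generated group `Λ` of functionals separates `V` and is stable under a
commutative ring `R` of endomorphisms, every character of `R` mod `ℓ` has a nonzero eigen-functional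
on `Λ`. -/
theorem exists_eigenfunctional {k V : Type*} [Field k] [CharZero k] [AddCommGroup V] [Module k V]
    (Λ : Submodule ℤ (Module.Dual k V)) [Module.Finite ℤ Λ]
    (hsep : ∀ v : V, (∀ l ∈ Λ, l v = 0) → v = 0)
    (R : Subring (Module.End k V)) (hcomm : ∀ a ∈ R, ∀ b ∈ R, Commute a b)
    (hst : ∀ r ∈ R, ∀ l ∈ Λ, l ∘ₗ r ∈ Λ)
    {K : Type*} [Field K] (ℓ : ℕ) [Fact ℓ.Prime] [CharP K ℓ] (χ : R →+* K) :
    ∃ ν : Λ →+ K, ν ≠ 0 ∧
      ∀ (r : R) (l : Λ), ν ⟨(l : Module.Dual k V) ∘ₗ (r : Module.End k V), hst _ r.2 _ l.2⟩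
        = χ r * ν l := by
  classical
  have : Module.IsTorsionFree ℤ Λ :=
    Function.Injective.moduleIsTorsionFree _ Λ.injective_subtype (fun _ _ => rfl)
  have : Module.Free ℤ Λ := Module.free_of_finite_type_torsion_free'
  let b := Module.finBasis ℤ Λ
  let act : R → Module.End ℤ Λ := fun r =>
    AddMonoidHom.toIntLinearMap (AddMonoidHom.mk'
      (fun l : Λ => (⟨(l : Module.Dual k V) ∘ₗ (r : Module.End k V), hst _ r.2 _ l.2⟩ : Λ))
      (fun _ _ => rfl))
  have hact : ∀ (r : R) (l : Λ), ((act r l : Λ) : Module.Dual k V)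
      = (l : Module.Dual k V) ∘ₗ (r : Module.End k V) := fun _ _ => rfl
  let Φ : R →+* Matrix (Fin (Module.finrank ℤ Λ)) (Fin (Module.finrank ℤ Λ)) ℤ :=
    { toFun := fun r => (LinearMap.toMatrixAlgEquiv b (act r)).transpose
      map_one' := by
        rw [show act 1 = 1 from LinearMap.ext fun l => Subtype.ext rfl, map_one, Matrix.transpose_one]
      map_mul' := fun r s => by
        rw [show act (r * s) = act s * act r from LinearMap.ext fun l => Subtype.ext rfl, map_mul,
          Matrix.transpose_mul]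
      map_zero' := by
        rw [show act 0 = 0 from LinearMap.ext fun l => Subtype.ext (LinearMap.comp_zero _), map_zero,
          Matrix.transpose_zero]
      map_add' := fun r s => by
        rw [show act (r + s) = act r + act s from
          LinearMap.ext fun l => Subtype.ext (LinearMap.comp_add _ _ _), map_add,
          Matrix.transpose_add] }
  have hΦ : Function.Injective Φ := by
    intro r s h
    have h1 : act r = act s :=
      (LinearMap.toMatrixAlgEquiv b).injective (Matrix.transpose_injective h)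
    refine Subtype.ext (LinearMap.ext fun v => sub_eq_zero.mp (hsep _ fun l hl => ?_))
    have h2 := congrArg Subtype.val (LinearMap.congr_fun h1 ⟨l, hl⟩)
    rw [hact, hact] at h2
    rw [map_sub, sub_eq_zero]
    exact LinearMap.congr_fun h2 v
  let e : R ≃+* Φ.range :=
    RingEquiv.ofBijective Φ.rangeRestrict ⟨fun r s h => hΦ (congrArg Subtype.val h),
      Φ.rangeRestrict_surjective⟩
  obtain ⟨v, hv0, hv⟩ := exists_eigenvector_of_ringHom ℓ Φ.range
    (by
      rintro _ ⟨r, rfl⟩ _ ⟨s, rfl⟩
      have h : r * s = s * r := Subtype.ext (hcomm _ r.2 _ s.2).eq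
      exact show Φ r * Φ s = Φ s * Φ r by rw [← map_mul, ← map_mul, h])
    (χ.comp e.symm.toRingHom)
  let ν : Λ →+ K :=
    AddMonoidHom.mk' (fun l => ∑ i, (b.repr l i : K) * v i) fun l l' => by
      simp [add_mul, Finset.sum_add_distrib]
  have hν : ∀ j, ν (b j) = v j := fun j => by
    show ∑ i, (b.repr (b j) i : K) * v i = v j
    rw [Finset.sum_eq_single j]
    · simp
    · intro i _ hij; simp [Ne.symm hij]
    · simp
  refine ⟨ν, fun h => hv0 (funext fun j => ?_), fun r l => ?_⟩
  · rw [← hν, h]; rfl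
  have key : ∀ j, ν (act r (b j)) = χ r * ν (b j) := fun j => by
    have h := congrFun (hv (e r)) j
    rw [RingHom.comp_apply] at h
    rw [hν, ← smul_eq_mul]
    refine Eq.trans ?_ (h.trans ?_)
    · show ∑ i, (b.repr (act r (b j)) i : K) * v i
        = Matrix.mulVec ((Φ r).map fun z : ℤ => (z : K)) v j
      rw [Matrix.mulVec, dotProduct]
      refine Finset.sum_congr rfl fun i _ => ?_
      show _ = ((LinearMap.toMatrixAlgEquiv b (act r)) i j : K) * v i
      rw [LinearMap.toMatrixAlgEquiv_apply]
    · simp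
  have := LinearMap.congr_fun (b.ext (f₁ := ν.toIntLinearMap ∘ₗ act r)
    (f₂ := (AddMonoidHom.mulLeft (χ r)).toIntLinearMap ∘ₗ ν.toIntLinearMap) key) l
  exact this

end Fermat.Agent.DeligneSerre
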