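/- Mod `ℓ` eigen-systems of weight two forms occur in `Hom(Γ₁(M), K)`. Owner: helper52 (DS). -/
import Fermat.Agent.DeligneSerre.NebFinite
import Fermat.Agent.DeligneSerre.Periods.Hecke
import Fermat.Agent.DeligneSerre.Periods.LatticeEigen
import Fermat.Agent.Periods.ParabolicBasis
import Fermat.Prelude.Thm_UpperHalfPlane_eq_of_forall_qCoeff_eq

set_option autoImplicit false

noncomputable section

open UpperHalfPlane CongruenceSubgroup ModularFormClass
open scoped MatrixGroups ModularForm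

namespace Fermat.Agent.DeligneSerre

open Fermat.Agent.Periods (cuspidalHoms)

section Coefficients

variable {N : ℕ} [NeZero N] {k : ℤ} {ε : DirichletCharacter ℂ N}

omit [NeZero N] in
/-- A form with nebentypus is determined by its coefficients. -/
theorem nebSpace_ext {f g : nebSpace N k ε}
    (h : ∀ n, qCoeffNeb N k ε n f = qCoeffNeb N k ε n g) : f = g := by
  have hΓ := one_mem_strictPeriods_Gamma1 N
  have : Fact (IsCusp OnePoint.infty (Gamma1 N : Subgroup (GL (Fin 2) ℝ))) :=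
    ⟨Subgroup.isCusp_of_mem_strictPeriods one_pos hΓ⟩
  exact Subtype.ext <| DFunLike.coe_injective <| UpperHalfPlane.eq_of_forall_qCoeff_eq
    (SlashInvariantFormClass.periodic_comp_ofComplex (f : CuspForm (Gamma1 N) k) hΓ)
    (ModularFormClass.holo (f : CuspForm (Gamma1 N) k))
    (ModularFormClass.bdd_at_infty (f : CuspForm (Gamma1 N) k))
    (SlashInvariantFormClass.periodic_comp_ofComplex (g : CuspForm (Gamma1 N) k) hΓ)
    (ModularFormClass.holo (g : CuspForm (Gamma1 N) k))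
    (ModularFormClass.bdd_at_infty (g : CuspForm (Gamma1 N) k)) h

theorem nebOp_comm {p q : ℕ} (hp : p.Prime) (hq : q.Prime) :
    Commute (nebOp N k ε hp) (nebOp N k ε hq) := by
  rcases eq_or_ne p q with rfl | hne
  · exact Commute.refl _
  refine LinearMap.ext fun f => nebSpace_ext fun n => ?_
  have hco : p.Coprime q := (Nat.coprime_primes hp hq).mpr hne
  have hd : ∀ m, p ∣ m * q ↔ p ∣ m := fun m => hco.dvd_mul_right
  have hd' : ∀ m, q ∣ m * p ↔ q ∣ m := fun m => hco.symm.dvd_mul_right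
  rw [Module.End.mul_apply, Module.End.mul_apply, qCoeffNeb_nebOp, qCoeffNeb_nebOp,
    qCoeffNeb_nebOp, qCoeffNeb_nebOp, qCoeffNeb_nebOp, qCoeffNeb_nebOp]
  simp only [hd, hd', Nat.mul_right_comm n p q]
  by_cases h1 : p ∣ n <;> by_cases h2 : q ∣ n
  · have e1 : q ∣ n / p := (Nat.Coprime.dvd_mul_left hco.symm).mp
      (by rwa [Nat.mul_div_cancel' h1])
    have e2 : p ∣ n / q := (Nat.Coprime.dvd_mul_left hco).mp (by rwa [Nat.mul_div_cancel' h2])
    simp only [h1, h2, e1, e2, if_true, Nat.div_mul_right_comm h1, Nat.div_mul_right_comm h2,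
      Nat.div_div_eq_div_mul, mul_comm q p]
    ring
  · have e1 : ¬ q ∣ n / p := fun h => h2 (h.trans (Nat.div_dvd_of_dvd h1))
    simp only [h1, h2, e1, if_true, if_false, Nat.div_mul_right_comm h1]
    ring
  · have e2 : ¬ p ∣ n / q := fun h => h1 (h.trans (Nat.div_dvd_of_dvd h2))
    simp only [h1, h2, e2, if_true, if_false, Nat.div_mul_right_comm h2]
    ring
  · simp only [h1, h2, if_false]
    ring

end Coefficients

variable {M : ℕ} [NeZero M] (ψ : DirichletCharacter ℂ M)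

/-- `T_p` for `p ∤ M` and the values of `ψ`. -/
def goodGenerators : Set (Module.End ℂ (nebSpace M 2 ψ)) :=
  {T | ∃ (p : ℕ) (hp : p.Prime), p.Coprime M ∧ T = nebOp M 2 ψ hp} ∪
    {T | ∃ u : (ZMod M)ˣ, T = ψ (u : ZMod M) • LinearMap.id}

/-- The good Hecke ring on forms with nebentypus. -/
def goodRing : Subring (Module.End ℂ (nebSpace M 2 ψ)) :=
  Subring.closure (goodGenerators ψ)

theorem goodRing_commute : ∀ a ∈ goodRing ψ, ∀ b ∈ goodRing ψ, Commute a b := by
  have hscalar : ∀ (c : ℂ) (T : Module.End ℂ (nebSpace M 2 ψ)),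
      Commute (c • LinearMap.id) T := fun c T => by
    rw [show (LinearMap.id : Module.End ℂ (nebSpace M 2 ψ)) = 1 from rfl]
    exact (Commute.one_left T).smul_left c
  have hgen : ∀ a ∈ goodGenerators ψ, ∀ b ∈ goodGenerators ψ, Commute a b := by
    rintro a (⟨p, hp, -, rfl⟩ | ⟨u, rfl⟩) b hb
    · rcases hb with ⟨q, hq, -, rfl⟩ | ⟨u, rfl⟩
      · exact nebOp_comm hp hq
      · exact (hscalar _ _).symm
    · exact hscalar _ _
  intro a ha b hb
  induction ha, hb using Subring.closure_induction₂ with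
  | mem_mem x y hx hy => exact hgen x hx y hy
  | zero_left x _ => exact Commute.zero_left x
  | zero_right x _ => exact Commute.zero_right x
  | one_left x _ => exact Commute.one_left x
  | one_right x _ => exact Commute.one_right x
  | neg_left x y _ _ h => exact h.neg_left
  | neg_right x y _ _ h => exact h.neg_right
  | add_left x y z _ _ _ h1 h2 => exact h1.add_left h2
  | add_right x y z _ _ _ h1 h2 => exact h1.add_right h2
  | mul_left x y z _ _ _ h1 h2 => exact h1.mul_left h2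
  | mul_right x y z _ _ _ h1 h2 => exact h1.mul_right h2

/-- The periods along `γ`, as functionals on forms with nebentypus. -/
def periodEval : Additive (Gamma1 M) →+ Module.Dual ℂ (nebSpace M 2 ψ) :=
  AddMonoidHom.mk'
    (fun γ =>
      { toFun := fun f => periodLinGen (Gamma1 M) (f : CuspForm (Gamma1 M) 2) γ
        map_add' := fun f g => by rw [Submodule.coe_add, map_add]; rfl
        map_smul' := fun c f => by rw [Submodule.coe_smul, map_smul]; rfl })
    fun γ δ => LinearMap.ext fun f => map_add (periodLinGen (Gamma1 M) _) γ δ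

theorem periodEval_apply (γ : Additive (Gamma1 M)) (f : nebSpace M 2 ψ) :
    periodEval ψ γ f = periodLinGen (Gamma1 M) (f : CuspForm (Gamma1 M) 2) γ := rfl

theorem periodEval_comp_nebOp {p : ℕ} (hp : p.Prime) (hpM : p.Coprime M) (γ : Gamma1 M) :
    periodEval ψ (Additive.ofMul γ) ∘ₗ nebOp M 2 ψ hp =
      haveI : Fact p.Prime := ⟨hp⟩
      ∑ x, periodEval ψ (Additive.ofMul (stepElt hpM γ x)) := by
  have : Fact p.Prime := ⟨hp⟩
  refine LinearMap.ext fun f => ?_
  rw [LinearMap.comp_apply, periodEval_apply, ← periodLinGen_nebOp hpM, LinearMap.coe_sum,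
    Finset.sum_apply]
  rfl

theorem periodEval_comp_scalar (δ : Gamma0 M) (γ : Gamma1 M) :
    periodEval ψ (Additive.ofMul γ) ∘ₗ
        (ψ (((δ : SL(2, ℤ)) 1 1 : ℤ) : ZMod M) • LinearMap.id) =
      periodEval ψ (Additive.ofMul (diamondConj δ γ)) := by
  refine LinearMap.ext fun f => ?_
  rw [LinearMap.comp_apply, LinearMap.smul_apply, LinearMap.id_apply, map_smul, periodEval_apply,
    periodEval_apply, ← diamondHom_apply (R := ℂ), periodLinGen_diamond]
  rfl

omit [NeZero M] in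
theorem exists_gamma0_lower (u : (ZMod M)ˣ) [NeZero M] :
    ∃ δ : Gamma0 M, (((δ : SL(2, ℤ)) 1 1 : ℤ) : ZMod M) = (u : ZMod M) := by
  have hco : (u : ZMod M).val.Coprime M := ZMod.val_coe_unit_coprime u
  exact ⟨⟨gamma0Lift M _, gamma0Lift_mem hco⟩, by
    rw [(gamma0Lift_spec hco).2, Int.cast_natCast, ZMod.natCast_zmod_val]⟩

omit [NeZero M] in
theorem isUnit_gamma0_lower (δ : Gamma0 M) :
    IsUnit (((δ : SL(2, ℤ)) 1 1 : ℤ) : ZMod M) := by
  have hd := congrArg (Int.cast : ℤ → ZMod M) (δ : SL(2, ℤ)).det_coe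
  rw [Matrix.det_fin_two] at hd
  push_cast at hd
  rw [Gamma0_mem.mp δ.2, mul_zero, sub_zero] at hd
  exact IsUnit.of_mul_eq_one_right _ hd

/-- A character mod `ℓ` of the good Hecke ring occurs in the cuspidal cohomology of `Γ₁(M)`. -/
theorem exists_eigenHom_of_character {K : Type*} [Field K] (ℓ : ℕ) [Fact ℓ.Prime] [CharP K ℓ]
    (χ : goodRing ψ →+* K) :
    ∃ φ ∈ cuspidalHoms K (Gamma1 M) K, φ ≠ 0 ∧
      (∀ (p : ℕ) (hp : p.Prime) (hpM : p.Coprime M),
        haveI : Fact p.Prime := ⟨hp⟩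
        heckeHom1 hpM K K φ =
          χ ⟨nebOp M 2 ψ hp, Subring.subset_closure (Or.inl ⟨p, hp, hpM, rfl⟩)⟩ • φ) ∧
      ∀ δ : Gamma0 M, diamondHom K K δ φ =
        χ ⟨ψ (((δ : SL(2, ℤ)) 1 1 : ℤ) : ZMod M) • LinearMap.id,
          Subring.subset_closure (Or.inr ⟨(isUnit_gamma0_lower δ).unit, by
            rw [IsUnit.unit_spec]⟩)⟩ • φ := by
  have := Periods.groupFG_SL2Z
  have : Group.FG (Gamma1 M) := Subgroup.fg_of_index_ne_zero _
  have : AddGroup.FG (Additive (Gamma1 M)) := GroupFG.iff_add_fg.mp inferInstance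
  let Λ : Submodule ℤ (Module.Dual ℂ (nebSpace M 2 ψ)) :=
    AddSubgroup.toIntSubmodule (periodEval ψ).range
  have : AddGroup.FG (periodEval ψ).range :=
    AddGroup.fg_of_surjective (periodEval ψ).rangeRestrict_surjective
  have : Module.Finite ℤ Λ :=
    Module.Finite.iff_addGroup_fg.mpr (inferInstanceAs (AddGroup.FG (periodEval ψ).range))
  have hsep : ∀ f : nebSpace M 2 ψ, (∀ l ∈ Λ, l f = 0) → f = 0 := fun f hf => by
    refine Subtype.ext (periodLinGen_injective (Gamma1 M) ?_)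
    rw [Submodule.coe_zero, map_zero]
    exact AddMonoidHom.ext fun γ => hf _ ⟨γ, rfl⟩
  have hst : ∀ r ∈ goodRing ψ, ∀ l ∈ Λ, l ∘ₗ r ∈ Λ := by
    intro r hr
    induction hr using Subring.closure_induction with
    | mem r hr =>
      rintro l ⟨γ, rfl⟩
      obtain ⟨γ, rfl⟩ := Additive.ofMul.surjective γ
      rcases hr with ⟨p, hp, hpM, rfl⟩ | ⟨u, rfl⟩
      · rw [periodEval_comp_nebOp ψ hp hpM γ]
        exact Submodule.sum_mem Λ fun x _ => ⟨_, rfl⟩
      · obtain ⟨δ, hδ⟩ := exists_gamma0_lower u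
        exact ⟨_, by rw [← hδ]; exact (periodEval_comp_scalar ψ δ γ).symm⟩
    | zero => intro l _; rw [LinearMap.comp_zero]; exact Λ.zero_mem
    | one => intro l hl; exact hl
    | add x y _ _ h1 h2 => intro l hl; rw [LinearMap.comp_add]; exact add_mem (h1 l hl) (h2 l hl)
    | neg x _ h => intro l hl; rw [LinearMap.comp_neg]; exact neg_mem (h l hl)
    | mul x y _ _ h1 h2 =>
      intro l hl
      rw [show l ∘ₗ (x * y) = (l ∘ₗ x) ∘ₗ y from rfl]
      exact h2 _ (h1 l hl)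
  obtain ⟨ν, hν0, hν⟩ := exists_eigenfunctional Λ hsep (goodRing ψ) (goodRing_commute ψ) hst ℓ χ
  let evΛ : Additive (Gamma1 M) →+ Λ := (periodEval ψ).rangeRestrict
  refine ⟨ν.comp evΛ, fun γ hγ => ?_, fun h => hν0 (AddMonoidHom.ext fun l => ?_),
    fun p hp hpM => ?_, fun δ => ?_⟩
  · have h0 : evΛ (Additive.ofMul γ) = 0 := Subtype.ext <| LinearMap.ext fun f =>
      periodLinGen_mem_cuspidalHoms (Gamma1 M) (f : CuspForm (Gamma1 M) 2) γ hγ
    show ν (evΛ (Additive.ofMul γ)) = 0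
    rw [h0, map_zero]
  · obtain ⟨γ, rfl⟩ := (periodEval ψ).rangeRestrict_surjective l
    exact DFunLike.congr_fun h γ
  · refine AddMonoidHom.ext fun y => ?_
    obtain ⟨γ, rfl⟩ := Additive.ofMul.surjective y
    have : Fact p.Prime := ⟨hp⟩
    rw [heckeHom1_apply, AddMonoidHom.smul_apply, AddMonoidHom.comp_apply, smul_eq_mul]
    refine Eq.trans ?_ (hν _ _)
    simp only [AddMonoidHom.comp_apply, ← map_sum]
    refine congrArg ν (Subtype.ext ?_)
    rw [Submodule.coe_sum]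
    exact (periodEval_comp_nebOp ψ hp hpM γ).symm
  · suffices main : ∀ r : goodRing ψ, (r : Module.End ℂ (nebSpace M 2 ψ))
        = ψ (((δ : SL(2, ℤ)) 1 1 : ℤ) : ZMod M) • LinearMap.id →
        diamondHom K K δ (ν.comp evΛ) = χ r • ν.comp evΛ from main _ rfl
    intro r hr'
    refine AddMonoidHom.ext fun y => ?_
    obtain ⟨γ, rfl⟩ := Additive.ofMul.surjective y
    rw [diamondHom_apply, AddMonoidHom.smul_apply]
    have h := hν r (evΛ (Additive.ofMul γ))
    show ν (evΛ _) = χ r * ν (evΛ _)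
    rw [← h]
    refine congrArg ν (Subtype.ext ?_)
    show periodEval ψ (Additive.ofMul (diamondConj δ γ))
      = periodEval ψ (Additive.ofMul γ) ∘ₗ (r : Module.End ℂ (nebSpace M 2 ψ))
    rw [hr']
    exact (periodEval_comp_scalar ψ δ γ).symm

/-- Forms with `O`-integral coefficients congruent to a multiple `μ` of `g`. -/
def IsCongruent {K : Type*} [Field K] (O : Subring ℂ) (red : O →+* K)
    (g : nebSpace M 2 ψ) (μ : K) (h : nebSpace M 2 ψ) : Prop :=
  ∀ n, ∃ a b : O, (a : ℂ) = qCoeffNeb M 2 ψ n h ∧ (b : ℂ) = qCoeffNeb M 2 ψ n g ∧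
    red a = μ * red b

/-- A form whose coefficients are congruent to those of an eigen-system gives a character of
the good Hecke ring, hence a cuspidal class mod `ℓ` with these eigenvalues. -/
theorem exists_eigenHom_of_congruence {K : Type*} [Field K] (ℓ : ℕ) [Fact ℓ.Prime] [CharP K ℓ]
    (O : Subring ℂ) (red : O →+* K) (g : nebSpace M 2 ψ) (A : ℕ → O)
    (hA : ∀ n, (A n : ℂ) = qCoeffNeb M 2 ψ n g) (n₀ : ℕ) (hA1 : red (A n₀) ≠ 0) (e : ZMod M → O)
    (he : ∀ d, (e d : ℂ) = ψ d) (c : ℕ → K)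
    (hc : ∀ p : ℕ, p.Prime → p.Coprime M → ∀ n,
      red (A (n * p) + e (p : ZMod M) * (if p ∣ n then (p : O) * A (n / p) else 0))
        = c p * red (A n)) :
    ∃ φ ∈ cuspidalHoms K (Gamma1 M) K, φ ≠ 0 ∧
      (∀ (p : ℕ) (hp : p.Prime) (hpM : p.Coprime M),
        haveI : Fact p.Prime := ⟨hp⟩
        heckeHom1 hpM K K φ = c p • φ) ∧
      ∀ δ : Gamma0 M, diamondHom K K δ φ =
        red (e (((δ : SL(2, ℤ)) 1 1 : ℤ) : ZMod M)) • φ := by
  have hAb : ∀ n (b : O), (b : ℂ) = qCoeffNeb M 2 ψ n g → b = A n :=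
    fun n b hb => Subtype.ext (hb.trans (hA n).symm)
  let P : Module.End ℂ (nebSpace M 2 ψ) → K → Prop := fun r t =>
    ∀ μ h, IsCongruent ψ O red g μ h → IsCongruent ψ O red g (t * μ) (r h)
  have hg : IsCongruent ψ O red g 1 g := fun n => ⟨A n, A n, hA n, hA n, (one_mul _).symm⟩
  have huniq : ∀ r t t', P r t → P r t' → t = t' := by
    intro r t t' h1 h2
    obtain ⟨a, b, ha, hb, hab⟩ := h1 1 g hg n₀
    obtain ⟨a', b', ha', hb', hab'⟩ := h2 1 g hg n₀
    rw [Subtype.ext (ha.trans ha'.symm), hAb n₀ b hb] at hab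
    rw [hAb n₀ b' hb'] at hab'
    rw [hab', mul_one, mul_one] at hab
    exact (mul_right_cancel₀ hA1 hab).symm
  have hT : ∀ p (hp : p.Prime), p.Coprime M → P (nebOp M 2 ψ hp) (c p) := by
    intro p hp hpM μ h hh n
    obtain ⟨a1, b1, ha1, hb1, hab1⟩ := hh (n * p)
    obtain ⟨a0, b0, ha0, hb0, hab0⟩ := hh (n / p)
    refine ⟨a1 + e (p : ZMod M) * (if p ∣ n then (p : O) * a0 else 0), A n, ?_, hA n, ?_⟩
    · rw [qCoeffNeb_nebOp]
      split_ifs <;> simp [ha1, ha0, he]
    · rw [mul_right_comm, ← hc p hp hpM n]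
      rw [hAb _ b1 hb1] at hab1
      rw [hAb _ b0 hb0] at hab0
      split_ifs with hd
      · simp only [map_add, map_mul, map_natCast, hab1, hab0]; ring
      · simp only [mul_zero, add_zero, hab1]
        ring
  have hS : ∀ d : ZMod M, P (ψ d • LinearMap.id) (red (e d)) := by
    intro d μ h hh n
    obtain ⟨a, b, ha, hb, hab⟩ := hh n
    refine ⟨e d * a, b, ?_, hb, by rw [map_mul, hab, mul_assoc]⟩
    simp [ha, he]
  have hex : ∀ r : goodRing ψ, ∃ t, P r t := by
    rintro ⟨r, hr⟩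
    induction hr using Subring.closure_induction with
    | mem r hr =>
      rcases hr with ⟨p, hp, hpM, rfl⟩ | ⟨u, rfl⟩
      · exact ⟨_, hT p hp hpM⟩
      · exact ⟨_, hS _⟩
    | zero =>
      refine ⟨0, fun μ h hh n => ⟨0, A n, ?_, hA n, by simp⟩⟩
      simp
    | one => exact ⟨1, fun μ h hh => by rw [one_mul]; exact hh⟩
    | add x y _ _ h1 h2 =>
      obtain ⟨t, ht⟩ := h1
      obtain ⟨t', ht'⟩ := h2
      refine ⟨t + t', fun μ h hh n => ?_⟩
      obtain ⟨a, b, ha, hb, hab⟩ := ht μ h hh n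
      obtain ⟨a', b', ha', hb', hab'⟩ := ht' μ h hh n
      refine ⟨a + a', b, ?_, hb, ?_⟩
      · simp [ha, ha']
      · rw [map_add, hab, hab', hAb n b hb, hAb n b' hb']; ring
    | neg x _ h1 =>
      obtain ⟨t, ht⟩ := h1
      refine ⟨-t, fun μ h hh n => ?_⟩
      obtain ⟨a, b, ha, hb, hab⟩ := ht μ h hh n
      refine ⟨-a, b, ?_, hb, ?_⟩
      · simp [ha]
      · rw [map_neg, hab]; ring
    | mul x y _ _ h1 h2 =>
      obtain ⟨t, ht⟩ := h1
      obtain ⟨t', ht'⟩ := h2
      exact ⟨t * t', fun μ h hh => by rw [mul_assoc]; exact ht _ _ (ht' μ h hh)⟩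
  choose t ht using hex
  let χ : goodRing ψ →+* K :=
    { toFun := t
      map_one' := huniq _ _ _ (ht 1) fun μ h hh => by rw [one_mul]; exact hh
      map_mul' := fun r s => huniq _ _ _ (ht (r * s)) fun μ h hh => by
        rw [mul_assoc]; exact ht r _ _ (ht s μ h hh)
      map_zero' := huniq _ _ _ (ht 0) fun μ h hh n => ⟨0, A n, by simp, hA n, by simp⟩
      map_add' := fun r s => huniq _ _ _ (ht (r + s)) fun μ h hh n => by
        obtain ⟨a, b, ha, hb, hab⟩ := ht r μ h hh n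
        obtain ⟨a', b', ha', hb', hab'⟩ := ht s μ h hh n
        refine ⟨a + a', b, ?_, hb, ?_⟩
        · simp [ha, ha']
        · rw [map_add, hab, hab', hAb n b hb, hAb n b' hb']; ring }
  obtain ⟨φ, hφ, hφ0, h1, h2⟩ := exists_eigenHom_of_character ψ ℓ χ
  refine ⟨φ, hφ, hφ0, fun p hp hpM => ?_, fun δ => ?_⟩
  · refine (h1 p hp hpM).trans ?_
    congr 1
    exact huniq _ _ _ (ht _) (hT p hp hpM)
  · refine (h2 δ).trans ?_
    congr 1
    exact huniq _ _ _ (ht _) (hS _)

/-- The residue-field form of `exists_eigenHom_of_congruence`, for a valuation subring of `ℂ`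
with `ℓ` in its maximal ideal. -/
theorem exists_eigenHom_of_residue (ℓ : ℕ) [Fact ℓ.Prime] (𝒪 : ValuationSubring ℂ)
    [CharP (IsLocalRing.ResidueField 𝒪) ℓ] (g : nebSpace M 2 ψ) (A : ℕ → 𝒪)
    (hA : ∀ n, (A n : ℂ) = qCoeffNeb M 2 ψ n g) (n₀ : ℕ)
    (hn₀ : IsLocalRing.residue 𝒪 (A n₀) ≠ 0) (e : ZMod M → 𝒪) (he : ∀ d, (e d : ℂ) = ψ d)
    (c : ℕ → IsLocalRing.ResidueField 𝒪)
    (hc : ∀ p : ℕ, p.Prime → p.Coprime M → ∀ n,
      IsLocalRing.residue 𝒪
          (A (n * p) + e (p : ZMod M) * (if p ∣ n then (p : 𝒪) * A (n / p) else 0))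
        = c p * IsLocalRing.residue 𝒪 (A n)) :
    ∃ φ ∈ cuspidalHoms (IsLocalRing.ResidueField 𝒪) (Gamma1 M) (IsLocalRing.ResidueField 𝒪),
      φ ≠ 0 ∧
      (∀ (p : ℕ) (hp : p.Prime) (hpM : p.Coprime M),
        haveI : Fact p.Prime := ⟨hp⟩
        heckeHom1 hpM (IsLocalRing.ResidueField 𝒪) (IsLocalRing.ResidueField 𝒪) φ = c p • φ) ∧
      ∀ δ : Gamma0 M,
        diamondHom (IsLocalRing.ResidueField 𝒪) (IsLocalRing.ResidueField 𝒪) δ φ =
          IsLocalRing.residue 𝒪 (e (((δ : SL(2, ℤ)) 1 1 : ℤ) : ZMod M)) • φ :=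
  exists_eigenHom_of_congruence ψ ℓ 𝒪.toSubring (IsLocalRing.residue 𝒪) g A hA n₀ hn₀ e he c hc

/-- The residue field has characteristic `ℓ` when `ℓ` is a nonunit. -/
theorem charP_residueField_of_mem_nonunits (ℓ : ℕ) [hl : Fact ℓ.Prime] (𝒪 : ValuationSubring ℂ)
    (h : (ℓ : ℂ) ∈ 𝒪.nonunits) : CharP (IsLocalRing.ResidueField 𝒪) ℓ := by
  obtain ⟨hmem, hm⟩ := ValuationSubring.mem_nonunits_iff_exists_mem_maximalIdeal.mp h
  have h0 : (ℓ : IsLocalRing.ResidueField 𝒪) = 0 := by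
    rw [← map_natCast (IsLocalRing.residue 𝒪), IsLocalRing.residue_eq_zero_iff]
    exact hm
  exact (CharP.charP_iff_prime_eq_zero hl.out).mpr h0

end Fermat.Agent.DeligneSerre
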